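/-
S31lib, block WC (helper8): the weak Chebotarev theorem, in the exact shapes consumed by the
blocks TC (helper4) and ASM (helper9).

* `brickWC` : for a finite set `S₀` of primes, a finite-dimensional subfield `L ≤ ℚ̄` (not
  necessarily Galois) and `σ ∈ G_ℚ` there are a prime `ℓ ∉ S₀`, a valuation subring `A` of `ℚ̄` over
  `ℓ`, a Frobenius element `φ` at `A` and `j : ℕ` with `φ ^ j = σ` on `L`.
* `brickWC_good` : the same with an arbitrary cofinite set `good` of primes.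
* `brickWC_openNormal` : the same for an open subgroup `U` of `G_ℚ` : `σ⁻¹ * φ ^ j ∈ U`.
-/
import Fermat.Agent.S31lib.WeakChebGQ

set_option autoImplicit false
set_option linter.style.haveILetI false
set_option linter.unusedSectionVars false

noncomputable section

namespace Fermat.Agent.S31lib.WC

/-- `ℚ̄` -/
local notation "Qb" => AlgebraicClosure ℚ
/-- `G_ℚ` -/
local notation "GQ" => (AlgebraicClosure ℚ ≃ₐ[ℚ] AlgebraicClosure ℚ)

/-- **Block WC (weak Chebotarev).**  Verbatim the statement `ASM.BrickWC`. -/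
theorem brickWC : ∀ (S₀ : Finset ℕ) (L : IntermediateField ℚ Qb), FiniteDimensional ℚ L →
    ∀ σ : GQ, ∃ (ℓ : ℕ) (A : ValuationSubring Qb) (φ : GQ) (j : ℕ), ℓ.Prime ∧ ℓ ∉ S₀ ∧
      A.LiesOverPrime ℓ ∧ A.IsFrobeniusAt φ ℓ ∧ ∀ x ∈ L, (φ ^ j) x = σ x := by
  intro S₀ L hL σ
  haveI := hL
  haveI : FiniteDimensional ℚ (IntermediateField.normalClosure ℚ L Qb) :=
    normalClosure.is_finiteDimensional ℚ L Qb
  haveI : Normal ℚ (IntermediateField.normalClosure ℚ L Qb) :=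
    normalClosure.normal ℚ L Qb
  haveI : IsGalois ℚ (IntermediateField.normalClosure ℚ L Qb) := ⟨⟩
  obtain ⟨ℓ, A, φ, j, h1, h2, h3, h4, h5⟩ :=
    Fermat.Agent.S31lib.exists_frobenius_pow_eq (IntermediateField.normalClosure ℚ L Qb) σ S₀
  exact ⟨ℓ, A, φ, j, h1, h2, h3, h4,
    fun x hx => (h5 x (IntermediateField.le_normalClosure L hx)).symm⟩

/-- Block WC for a cofinite set `good` of primes: the shape of the hypothesis `hWC` of
`TC.trace_mul_eq_of_family`. -/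
theorem brickWC_good (good : ℕ → Prop) (S₀ : Finset ℕ)
    (hgood : ∀ ℓ : ℕ, ℓ.Prime → ℓ ∉ S₀ → good ℓ) :
    ∀ L : IntermediateField ℚ Qb, FiniteDimensional ℚ L → ∀ σ : GQ,
      ∃ (ℓ : ℕ) (A : ValuationSubring Qb) (φ : GQ) (j : ℕ), good ℓ ∧ A.LiesOverPrime ℓ ∧
        A.IsFrobeniusAt φ ℓ ∧ ∀ x ∈ L, (φ ^ j) x = σ x := by
  intro L hL σ
  obtain ⟨ℓ, A, φ, j, h1, h2, h3, h4, h5⟩ := brickWC S₀ L hL σ
  exact ⟨ℓ, A, φ, j, hgood ℓ h1 h2, h3, h4, h5⟩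

/-- Block WC for open subgroups of `G_ℚ` (Krull topology). -/
theorem brickWC_open (S₀ : Finset ℕ) (U : Subgroup GQ) (hU : IsOpen (U : Set GQ)) (σ : GQ) :
    ∃ (ℓ : ℕ) (A : ValuationSubring Qb) (φ : GQ) (j : ℕ), ℓ.Prime ∧ ℓ ∉ S₀ ∧
      A.LiesOverPrime ℓ ∧ A.IsFrobeniusAt φ ℓ ∧ σ⁻¹ * φ ^ j ∈ U := by
  obtain ⟨L, hL, hLU⟩ := (krullTopology_mem_nhds_one_iff ℚ Qb (U : Set GQ)).mp
    (hU.mem_nhds U.one_mem)
  obtain ⟨ℓ, A, φ, j, h1, h2, h3, h4, h5⟩ := brickWC S₀ L hL σ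
  refine ⟨ℓ, A, φ, j, h1, h2, h3, h4, hLU ?_⟩
  intro x
  show (σ⁻¹ * φ ^ j) • (x : Qb) = x
  rw [AlgEquiv.smul_def, AlgEquiv.mul_apply, h5 x x.2]
  exact σ.symm_apply_apply x

end Fermat.Agent.S31lib.WC
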